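/-
S29 / S42 (Program A), glue leaf QUAD, part 1 (helper39): the polynomial core.

Let `k` be algebraically closed, `μ ∣ X ^ m - 1` a polynomial (the minimal polynomial of the action
of a group element `g` of order `m`), `ε ^ m = 1`.  Suppose that for any two primes `r, r' ∣ m`
there is an exponent `e` with `r, r' ∤ gcd e m` such that `μ ∣ (X ^ e - l) * (X ^ e - l')` for some
`l * l' = ε ^ e` (a power `g ^ e` generating a subgroup of index prime to `r r'` satisfies a
quadratic relation with constant term `ε (g ^ e)`).  Then `μ ∣ (X - θ) * (X - θ')` for some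
`θ * θ' = ε`.

This replaces the exact (cyclic) form of the Frobenius density theorem by its sub-additive form
with at most two subgroups.
-/
import Mathlib

set_option autoImplicit false

open Polynomial

namespace Fermat.Agent.S29.H39

variable {k : Type*} [Field k]

/-- A root of `(X ^ e - C l) * (X ^ e - C l')`. -/
theorem pow_eq_or_of_isRoot_mul {e : ℕ} {l l' t : k}
    (h : ((X ^ e - C l) * (X ^ e - C l') : k[X]).IsRoot t) : t ^ e = l ∨ t ^ e = l' := by
  rw [IsRoot.def, eval_mul] at h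
  simp only [eval_sub, eval_pow, eval_X, eval_C] at h
  rcases mul_eq_zero.1 h with h | h
  · exact Or.inl (sub_eq_zero.1 h)
  · exact Or.inr (sub_eq_zero.1 h)

/-- If `u ^ m = 1`, `u ^ e = 1` and a prime `r` divides the order of `u`, then `r ∣ gcd e m`. -/
theorem dvd_gcd_of_pow_eq_one {u : k} {m e r : ℕ} (hm : u ^ m = 1) (he : u ^ e = 1)
    (hr : r ∣ orderOf u) : r ∣ Nat.gcd e m :=
  hr.trans (Nat.dvd_gcd (orderOf_dvd_of_pow_eq_one he) (orderOf_dvd_of_pow_eq_one hm))

/-- An element `u ≠ 1` with `u ^ m = 1`, `0 < m`, has a prime dividing its order (and `m`). -/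
theorem exists_prime_dvd_orderOf {u : k} {m : ℕ} (hu : u ≠ 1) (hum : u ^ m = 1) :
    ∃ r : ℕ, r.Prime ∧ r ∣ orderOf u ∧ r ∣ m := by
  have h1 : orderOf u ≠ 1 := fun h => hu (orderOf_eq_one_iff.1 h)
  obtain ⟨r, hr, hru⟩ := Nat.exists_prime_and_dvd h1
  exact ⟨r, hr, hru, hru.trans (orderOf_dvd_of_pow_eq_one hum)⟩

/-- **QUAD, polynomial core.** -/
theorem exists_dvd_mul_of_pow [IsAlgClosed k] (μ : k[X]) (hμ0 : μ ≠ 0) (m : ℕ) (hm : 0 < m)
    (hμ : μ ∣ X ^ m - 1) (ε : k) (hε : ε ^ m = 1)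
    (h : ∀ r r' : ℕ, r.Prime → r'.Prime → r ∣ m → r' ∣ m →
      ∃ e : ℕ, ¬ r ∣ Nat.gcd e m ∧ ¬ r' ∣ Nat.gcd e m ∧
        ∃ l l' : k, l * l' = ε ^ e ∧ μ ∣ (X ^ e - C l) * (X ^ e - C l')) :
    ∃ θ θ' : k, θ * θ' = ε ∧ μ ∣ (X - C θ) * (X - C θ') := by
  classical
  have hε0 : ε ≠ 0 := by
    rintro rfl
    rw [zero_pow hm.ne'] at hε
    exact zero_ne_one hε
  have hsplit : μ.Splits := IsAlgClosed.splits μ
  -- the case without roots
  by_cases hroot : ∃ θ, μ.IsRoot θ
  swap
  · refine ⟨ε, 1, mul_one ε, ?_⟩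
    have hdeg : μ.degree = 0 := by
      by_contra hd
      exact hroot (IsAlgClosed.exists_root μ hd)
    have hu : IsUnit μ := by
      rw [eq_C_of_degree_eq_zero hdeg]
      refine Polynomial.isUnit_C.2 (isUnit_iff_ne_zero.2 ?_)
      intro h0
      apply hμ0
      rw [eq_C_of_degree_eq_zero hdeg, h0, C_0]
    exact hu.dvd
  obtain ⟨θ, hθ⟩ := hroot
  -- roots of `μ` are `m`-th roots of unity
  have hroot_pow : ∀ t, μ.IsRoot t → t ^ m = 1 := by
    intro t ht
    have h1 : (X ^ m - 1 : k[X]).IsRoot t := ht.dvd hμ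
    rw [IsRoot.def] at h1
    simp only [eval_sub, eval_pow, eval_X, eval_one] at h1
    exact sub_eq_zero.1 h1
  have hθm := hroot_pow θ hθ
  have hθ0 : θ ≠ 0 := by
    rintro rfl
    rw [zero_pow hm.ne'] at hθm
    exact zero_ne_one hθm
  set θ' : k := ε / θ with hθ'
  have hθθ' : θ * θ' = ε := by rw [hθ']; field_simp
  refine ⟨θ, θ', hθθ', ?_⟩
  -- Step 1: every root is `θ` or `θ'`
  have step1 : ∀ t, μ.IsRoot t → t = θ ∨ t = θ' := by
    intro t ht
    by_contra hcon
    rw [not_or] at hcon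
    obtain ⟨h1, h2⟩ := hcon
    have htm := hroot_pow t ht
    have ht0 : t ≠ 0 := by
      rintro rfl
      rw [zero_pow hm.ne'] at htm
      exact zero_ne_one htm
    have hu : t / θ ≠ 1 := by
      intro h
      exact h1 ((div_eq_one_iff_eq hθ0).1 h)
    have hw : t * θ / ε ≠ 1 := by
      intro h
      apply h2
      rw [hθ', eq_div_iff hθ0]
      exact (div_eq_one_iff_eq hε0).1 h
    have hum : (t / θ) ^ m = 1 := by rw [div_pow, htm, hθm, div_one]
    have hwm : (t * θ / ε) ^ m = 1 := by rw [div_pow, mul_pow, htm, hθm, hε, mul_one, div_one]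
    obtain ⟨r, hr, hru, hrm⟩ := exists_prime_dvd_orderOf hu hum
    obtain ⟨r', hr', hrw, hrm'⟩ := exists_prime_dvd_orderOf hw hwm
    obtain ⟨e, he, he', l, l', hll, hdvd⟩ := h r r' hr hr' hrm hrm'
    have c1 := pow_eq_or_of_isRoot_mul (hθ.dvd hdvd)
    have c2 := pow_eq_or_of_isRoot_mul (ht.dvd hdvd)
    have hue : (t / θ) ^ e = 1 → False := fun hh => he (dvd_gcd_of_pow_eq_one hum hh hru)
    have hwe : (t * θ / ε) ^ e = 1 → False := fun hh => he' (dvd_gcd_of_pow_eq_one hwm hh hrw)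
    have hθe0 : θ ^ e ≠ 0 := pow_ne_zero _ hθ0
    have hεe0 : ε ^ e ≠ 0 := pow_ne_zero _ hε0
    rcases c1 with c1 | c1 <;> rcases c2 with c2 | c2
    · exact hue (by rw [div_pow, c1, c2, div_self (c1 ▸ hθe0)])
    · apply hwe
      rw [div_pow, mul_pow, c1, c2, mul_comm, hll, div_self hεe0]
    · apply hwe
      rw [div_pow, mul_pow, c1, c2, hll, div_self hεe0]
    · exact hue (by rw [div_pow, c1, c2, div_self (c1 ▸ hθe0)])
  -- reduce to multiplicities
  have hq0 : ((X - C θ) * (X - C θ') : k[X]) ≠ 0 :=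
    mul_ne_zero (X_sub_C_ne_zero θ) (X_sub_C_ne_zero θ')
  apply hsplit.dvd_of_roots_le_roots hμ0
  rw [roots_mul hq0, roots_X_sub_C, roots_X_sub_C, Multiset.le_iff_count]
  intro a
  rw [count_roots]
  by_cases ha : μ.IsRoot a
  swap
  · rw [rootMultiplicity_eq_zero ha]
    exact Nat.zero_le _
  have hcount1 : a = θ ∨ a = θ' := step1 a ha
  have hone : 1 ≤ Multiset.count a ({θ} + {θ'} : Multiset k) := by
    rw [Multiset.one_le_count_iff_mem, Multiset.mem_add, Multiset.mem_singleton,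
      Multiset.mem_singleton]
    exact hcount1
  -- separable case
  by_cases hmk : (m : k) = 0
  swap
  · have hsep : (X ^ m - 1 : k[X]).Separable := by
      have := separable_X_pow_sub_C (1 : k) hmk one_ne_zero
      rwa [map_one] at this
    exact (rootMultiplicity_le_one_of_separable (hsep.of_dvd hμ) a).trans hone
  -- characteristic `p ∣ m`
  obtain ⟨p, hp⟩ := CharP.exists k
  have hpm : p ∣ m := (CharP.cast_eq_zero_iff k p m).1 hmk
  have hp0 : p ≠ 0 := by
    rintro rfl
    exact hm.ne' (Nat.eq_zero_of_zero_dvd hpm)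
  have hpprime : p.Prime := (CharP.char_is_prime_or_zero k p).resolve_right hp0
  have hcast : ∀ e : ℕ, ¬ p ∣ Nat.gcd e m → (e : k) ≠ 0 := by
    intro e he hek
    exact he (Nat.dvd_gcd ((CharP.cast_eq_zero_iff k p e).1 hek) hpm)
  by_cases hθeq : θ = θ'
  · -- `θ = θ'`: multiplicity at most two
    have ha' : a = θ := by
      rcases hcount1 with h1 | h1
      · exact h1
      · exact h1.trans hθeq.symm
    obtain ⟨e, he, -, l, l', hll, hdvd⟩ := h p p hpprime hpprime hpm hpm
    have hek := hcast e he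
    have hεe0 : ε ^ e ≠ 0 := pow_ne_zero _ hε0
    have hl0 : l ≠ 0 := fun h0 => hεe0 (by rw [← hll, h0, zero_mul])
    have hl'0 : l' ≠ 0 := fun h0 => hεe0 (by rw [← hll, h0, mul_zero])
    have hP0 : ((X ^ e - C l) * (X ^ e - C l') : k[X]) ≠ 0 :=
      mul_ne_zero (separable_X_pow_sub_C l hek hl0).ne_zero
        (separable_X_pow_sub_C l' hek hl'0).ne_zero
    have h2 : rootMultiplicity a μ ≤ 2 := by
      refine (rootMultiplicity_le_rootMultiplicity_of_dvd hP0 hdvd a).trans ?_
      rw [rootMultiplicity_mul hP0]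
      exact Nat.add_le_add
        (rootMultiplicity_le_one_of_separable (separable_X_pow_sub_C l hek hl0) a)
        (rootMultiplicity_le_one_of_separable (separable_X_pow_sub_C l' hek hl'0) a)
    refine h2.trans ?_
    rw [← hθeq, ha', Multiset.count_add, Multiset.count_singleton_self]
  · -- `θ ≠ θ'`: `μ` is separable
    have hv : θ' / θ ≠ 1 := fun hh => hθeq ((div_eq_one_iff_eq hθ0).1 hh).symm
    have hθ'0 : θ' ≠ 0 := by
      rw [hθ']
      exact div_ne_zero hε0 hθ0
    have hθ'm : θ' ^ m = 1 := by rw [hθ', div_pow, hε, hθm, div_one]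
    have hvm : (θ' / θ) ^ m = 1 := by rw [div_pow, hθ'm, hθm, div_one]
    obtain ⟨r', hr', hrv, hrm'⟩ := exists_prime_dvd_orderOf hv hvm
    obtain ⟨e, he, he', l, l', hll, hdvd⟩ := h p r' hpprime hr' hpm hrm'
    have hek := hcast e he
    have hεe0 : ε ^ e ≠ 0 := pow_ne_zero _ hε0
    have hl0 : l ≠ 0 := fun h0 => hεe0 (by rw [← hll, h0, zero_mul])
    have hl'0 : l' ≠ 0 := fun h0 => hεe0 (by rw [← hll, h0, mul_zero])
    have hve : (θ' / θ) ^ e ≠ 1 := fun hh => he' (dvd_gcd_of_pow_eq_one hvm hh hrv)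
    have hθe0 : θ ^ e ≠ 0 := pow_ne_zero _ hθ0
    have hprod : θ ^ e * θ' ^ e = ε ^ e := by rw [← mul_pow, hθθ']
    have hne : l ≠ l' := by
      intro hl
      apply hve
      rw [div_pow, div_eq_one_iff_eq hθe0]
      rcases pow_eq_or_of_isRoot_mul (hθ.dvd hdvd) with c | c
      · -- `θ ^ e = l`, so `θ' ^ e = l' = l`
        have : θ ^ e * θ' ^ e = θ ^ e * θ ^ e := by rw [hprod, ← hll, ← hl, c]
        exact mul_left_cancel₀ hθe0 this
      · have : θ ^ e * θ' ^ e = θ ^ e * θ ^ e := by rw [hprod, ← hll, hl, c]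
        exact mul_left_cancel₀ hθe0 this
    have hcop : IsCoprime (X ^ e - C l : k[X]) (X ^ e - C l') := by
      have hunit : IsUnit (C (l' - l) : k[X]) :=
        Polynomial.isUnit_C.2 (isUnit_iff_ne_zero.2 (sub_ne_zero.2 hne.symm))
      obtain ⟨c, hc⟩ := hunit.exists_left_inv
      refine ⟨c, -c, ?_⟩
      rw [← hc, C_sub]
      ring
    have hsep : ((X ^ e - C l) * (X ^ e - C l') : k[X]).Separable :=
      (separable_X_pow_sub_C l hek hl0).mul (separable_X_pow_sub_C l' hek hl'0) hcop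
    exact (rootMultiplicity_le_one_of_separable (hsep.of_dvd hdvd) a).trans hone

/-- **QUAD, operator form.**  `A` an endomorphism of a finite-dimensional space over an
algebraically closed field with `A ^ m = 1`; if suitable powers of `A` satisfy quadratic relations
with constant term `ε ^ e`, then `A` satisfies one with constant term `ε`. -/
theorem exists_mul_sub_eq_zero_of_pow [IsAlgClosed k] {W : Type*} [AddCommGroup W] [Module k W]
    [FiniteDimensional k W] (A : Module.End k W) (m : ℕ) (hm : 0 < m) (hA : A ^ m = 1) (ε : k)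
    (hε : ε ^ m = 1)
    (h : ∀ r r' : ℕ, r.Prime → r'.Prime → r ∣ m → r' ∣ m →
      ∃ e : ℕ, ¬ r ∣ Nat.gcd e m ∧ ¬ r' ∣ Nat.gcd e m ∧
        ∃ l l' : k, l * l' = ε ^ e ∧
          (A ^ e - algebraMap k (Module.End k W) l) * (A ^ e - algebraMap k (Module.End k W) l')
            = 0) :
    ∃ θ θ' : k, θ * θ' = ε ∧
      (A - algebraMap k (Module.End k W) θ) * (A - algebraMap k (Module.End k W) θ') = 0 := by
  have hint : IsIntegral k A := Algebra.IsIntegral.isIntegral A
  have hμ0 : minpoly k A ≠ 0 := minpoly.ne_zero hint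
  have hμ : minpoly k A ∣ X ^ m - 1 := by
    rw [minpoly.dvd_iff]
    simp [hA]
  obtain ⟨θ, θ', hθ, hdvd⟩ := exists_dvd_mul_of_pow (minpoly k A) hμ0 m hm hμ ε hε (by
    intro r r' hr hr' hrm hrm'
    obtain ⟨e, he, he', l, l', hll, hz⟩ := h r r' hr hr' hrm hrm'
    refine ⟨e, he, he', l, l', hll, ?_⟩
    rw [minpoly.dvd_iff]
    simpa using hz)
  refine ⟨θ, θ', hθ, ?_⟩
  rw [minpoly.dvd_iff] at hdvd
  simpa using hdvd

end Fermat.Agent.S29.H39
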