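/-
S29 / S42 (Program A), glue leaf QUAD, part 2 (helper39): the group form.

`G` a group all of whose elements have finite order, `ρ : G →* End_k W` a representation on a
finite-dimensional space over an algebraically closed field, `ε : G →* kˣ` a character.
`IsQuad ρ ε σ` : `ρ σ ^ 2 - a ρ σ + ε σ = 0` for some `a : k`.

`isQuad_of_density`: if in every cyclic subgroup `⟨g⟩` and for every finite set `S` of subgroups
of `⟨g⟩` with `∑ 1 / [⟨g⟩ : K] < 1` there is a quadratic element of `⟨g⟩` outside all `K ∈ S`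
(the *sub-additive* Frobenius density, used only for sets `S` with at most two elements), then
every element of `G` is quadratic.
-/
import Fermat.Agent.S29.H39.QuadPoly

set_option autoImplicit false

open Polynomial

namespace Fermat.Agent.S29.H39

variable {G : Type*} [Group G] {k : Type*} [Field k] {W : Type*} [AddCommGroup W] [Module k W]

/-- `σ` satisfies a quadratic relation `σ ^ 2 - a σ + ε σ = 0` on `W`. -/
def IsQuad (ρ : G →* Module.End k W) (ε : G →* kˣ) (σ : G) : Prop :=
  ∃ a : k, ρ σ * ρ σ - a • ρ σ + ((ε σ : kˣ) : k) • (1 : Module.End k W) = 0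

theorem isQuad_of_factor {ρ : G →* Module.End k W} {ε : G →* kˣ} {σ : G} {t t' : k}
    (htt : t * t' = ((ε σ : kˣ) : k))
    (h : (ρ σ - algebraMap k (Module.End k W) t) * (ρ σ - algebraMap k (Module.End k W) t') = 0) :
    IsQuad ρ ε σ := by
  refine ⟨t + t', ?_⟩
  rw [← h, ← htt]
  simp only [Algebra.algebraMap_eq_smul_one, sub_mul, mul_sub, smul_mul_assoc, mul_smul_comm,
    one_mul, mul_one]
  module

theorem IsQuad.exists_factor [IsAlgClosed k] {ρ : G →* Module.End k W} {ε : G →* kˣ} {σ : G}
    (h : IsQuad ρ ε σ) :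
    ∃ t t' : k, t * t' = ((ε σ : kˣ) : k) ∧
      (ρ σ - algebraMap k (Module.End k W) t) * (ρ σ - algebraMap k (Module.End k W) t') = 0 := by
  obtain ⟨a, ha⟩ := h
  set e : k := ((ε σ : kˣ) : k) with he
  have he0 : e ≠ 0 := (ε σ).ne_zero
  -- a root of `X ^ 2 - a X + e`
  obtain ⟨t, ht⟩ := IsAlgClosed.exists_root (X ^ 2 - C a * X + C e : k[X]) (by
    have hd : (X ^ 2 - C a * X + C e : k[X]).degree = 2 := by
      compute_degree!
    rw [hd]
    decide)
  rw [IsRoot.def] at ht
  simp only [eval_add, eval_sub, eval_pow, eval_X, eval_mul, eval_C] at ht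
  have ht0 : t ≠ 0 := by
    rintro rfl
    apply he0
    simpa using ht
  refine ⟨t, e / t, by field_simp, ?_⟩
  have hat : a = t + e / t := by
    field_simp
    linear_combination -ht
  have h1 : e / t * t = e := by field_simp
  rw [← ha, hat]
  simp only [Algebra.algebraMap_eq_smul_one, sub_mul, mul_sub, smul_mul_assoc, mul_smul_comm,
    one_mul, mul_one, smul_sub, smul_smul, h1]
  module

/-- The index of `⟨g ^ r⟩` in `⟨g⟩` for `r ∣ orderOf g`. -/
theorem relIndex_zpowers_pow {g : G} (hg : IsOfFinOrder g) {r : ℕ} (hr0 : r ≠ 0)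
    (hr : r ∣ orderOf g) :
    (Subgroup.zpowers (g ^ r)).relIndex (Subgroup.zpowers g) = r := by
  have hle : Subgroup.zpowers (g ^ r) ≤ Subgroup.zpowers g :=
    Subgroup.zpowers_le.2 (pow_mem (Subgroup.mem_zpowers g) r)
  have h1 := Subgroup.relIndex_mul_relIndex ⊥ (Subgroup.zpowers (g ^ r)) (Subgroup.zpowers g)
    bot_le hle
  rw [Subgroup.relIndex_bot_left, Subgroup.relIndex_bot_left, Nat.card_zpowers, Nat.card_zpowers,
    orderOf_pow' g hr0, Nat.gcd_eq_right hr] at h1
  have hm : 0 < orderOf g := hg.orderOf_pos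
  have h2 : orderOf g / r * r = orderOf g := Nat.div_mul_cancel hr
  have h3 : 0 < orderOf g / r := Nat.div_pos (Nat.le_of_dvd hm hr) (Nat.pos_of_ne_zero hr0)
  have h4 : orderOf g / r * (Subgroup.zpowers (g ^ r)).relIndex (Subgroup.zpowers g) =
      orderOf g / r * r := by rw [h1, h2]
  exact Nat.eq_of_mul_eq_mul_left h3 h4

/-- **QUAD, group form**: sub-additive density (for at most two subgroups of each cyclic
subgroup) of quadratic elements implies that every element is quadratic. -/
theorem isQuad_of_density [IsAlgClosed k] [FiniteDimensional k W] (hfin : ∀ g : G, IsOfFinOrder g)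
    (ρ : G →* Module.End k W) (ε : G →* kˣ)
    (hdens : ∀ (g : G) (S : Finset (Subgroup G)), (∀ K ∈ S, K ≤ Subgroup.zpowers g) →
      (∑ K ∈ S, (1 : ℝ) / ((K.relIndex (Subgroup.zpowers g) : ℕ) : ℝ)) < 1 →
      ∃ σ ∈ Subgroup.zpowers g, (∀ K ∈ S, σ ∉ K) ∧ IsQuad ρ ε σ) :
    ∀ g : G, IsQuad ρ ε g := by
  classical
  intro g
  have hg := hfin g
  set m := orderOf g with hm
  have hm0 : 0 < m := hg.orderOf_pos
  have hA : ρ g ^ m = 1 := by rw [← map_pow, hm, pow_orderOf_eq_one, map_one]
  have hε : (((ε g : kˣ) : k)) ^ m = 1 := by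
    rw [← Units.val_pow_eq_pow_val, ← map_pow, hm, pow_orderOf_eq_one, map_one, Units.val_one]
  obtain ⟨t, t', htt, hz⟩ := exists_mul_sub_eq_zero_of_pow (ρ g) m hm0 hA _ hε (by
    intro r r' hr hr' hrm hrm'
    have hle : ∀ s : ℕ, Subgroup.zpowers (g ^ s) ≤ Subgroup.zpowers g := fun s =>
      Subgroup.zpowers_le.2 (pow_mem (Subgroup.mem_zpowers g) s)
    have hidx : (Subgroup.zpowers (g ^ r)).relIndex (Subgroup.zpowers g) = r :=
      relIndex_zpowers_pow hg hr.ne_zero hrm
    have hidx' : (Subgroup.zpowers (g ^ r')).relIndex (Subgroup.zpowers g) = r' :=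
      relIndex_zpowers_pow hg hr'.ne_zero hrm'
    have hr2 : (2 : ℝ) ≤ (r : ℝ) := by exact_mod_cast hr.two_le
    have hr'2 : (2 : ℝ) ≤ (r' : ℝ) := by exact_mod_cast hr'.two_le
    -- the density input
    have key : ∃ σ ∈ Subgroup.zpowers g, σ ∉ Subgroup.zpowers (g ^ r) ∧
        σ ∉ Subgroup.zpowers (g ^ r') ∧ IsQuad ρ ε σ := by
      by_cases hrr : r = r'
      · subst hrr
        obtain ⟨σ, hσ, hσS, hq⟩ := hdens g {Subgroup.zpowers (g ^ r)}
          (fun K hK => by rw [Finset.mem_singleton.1 hK]; exact hle r) (by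
            rw [Finset.sum_singleton, hidx, div_lt_one (by linarith)]
            linarith)
        have h1 := hσS _ (Finset.mem_singleton_self _)
        exact ⟨σ, hσ, h1, h1, hq⟩
      · have hne : Subgroup.zpowers (g ^ r) ≠ Subgroup.zpowers (g ^ r') := by
          intro heq
          apply hrr
          rw [← hidx, heq, hidx']
        obtain ⟨σ, hσ, hσS, hq⟩ := hdens g {Subgroup.zpowers (g ^ r), Subgroup.zpowers (g ^ r')}
          (fun K hK => by
            rcases Finset.mem_insert.1 hK with h | h
            · rw [h]; exact hle r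
            · rw [Finset.mem_singleton.1 h]; exact hle r') (by
            rw [Finset.sum_pair hne, hidx, hidx']
            have hrr' : (r : ℝ) ≠ (r' : ℝ) := by exact_mod_cast hrr
            have h5 : (r : ℝ) + r' < r * r' := by
              have hnat : r + r' < r * r' := by
                have h2 := hr.two_le
                have h2' := hr'.two_le
                rcases Nat.lt_or_gt_of_ne hrr with hlt | hlt
                · nlinarith
                · nlinarith
              exact_mod_cast hnat
            rw [div_add_div _ _ (by linarith) (by linarith), div_lt_one (by nlinarith)]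
            linarith)
        exact ⟨σ, hσ, hσS _ (Finset.mem_insert_self _ _),
          hσS _ (Finset.mem_insert_of_mem (Finset.mem_singleton_self _)), hq⟩
    obtain ⟨σ, hσ, hσr, hσr', hq⟩ := key
    obtain ⟨e, rfl⟩ := (hg.mem_powers_iff_mem_zpowers).2 hσ
    have hnd : ∀ s : ℕ, g ^ e ∉ Subgroup.zpowers (g ^ s) → ¬ s ∣ Nat.gcd e m := by
      intro s hs hd
      obtain ⟨c, hc⟩ := hd.trans (Nat.gcd_dvd_left e m)
      apply hs
      rw [hc, pow_mul]
      exact pow_mem (Subgroup.mem_zpowers _) c
    obtain ⟨l, l', hll, hz⟩ := hq.exists_factor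
    refine ⟨e, hnd r hσr, hnd r' hσr', l, l', ?_, ?_⟩
    · rw [hll, map_pow, Units.val_pow_eq_pow_val]
    · rw [← map_pow]
      exact hz)
  exact isQuad_of_factor htt hz

end Fermat.Agent.S29.H39
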