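/-
S29 / S42 (Program A), glue leaf QUAD, part 4 (helper39): the `ℚbar` form (ALLQUAD).

`r : Gal(ℚbar/ℚ) →* End_κ W` a representation on a finite-dimensional space over an algebraically
closed field, `ε : Gal(ℚbar/ℚ) →* κˣ` a character, both factoring through a finite level.  If every
Frobenius element `σ` at every valuation subring of `ℚbar` over a prime `ℓ ∉ S` satisfies a
quadratic relation `r σ ^ 2 - a • r σ + ε σ = 0`, then every element of `Gal(ℚbar/ℚ)` does.

Inputs: the landed `isQuad_of_density`, the landed sub-additive Frobenius density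
`S41.H70.exists_prime_forall_isFrobeniusAt_aux` (used for families of at most two subgroups) and
the landed existence of Frobenius elements `S54.H94.exists_isFrobeniusAt`.
-/
import Fermat.Agent.S29.H39.Quad
import Fermat.Agent.S41.H70.FrobVal
import Fermat.Agent.S54.H94.Frobenius
import Fermat.Prelude.Def_GaloisRep_Residual

set_option autoImplicit false
set_option linter.style.haveILetI false

open NumberField

namespace Fermat.Agent.S29.H39

local notation "Qbar" => AlgebraicClosure ℚ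
local notation "Γ" => (AlgebraicClosure ℚ ≃ₐ[ℚ] AlgebraicClosure ℚ)

/-- `IsQuad` is invariant under conjugation. -/
theorem IsQuad.conj {G : Type*} [Group G] {k : Type*} [Field k] {W : Type*} [AddCommGroup W]
    [Module k W] {ρ : G →* Module.End k W} {ε : G →* kˣ} {σ : G} (h : IsQuad ρ ε σ) (τ : G) :
    IsQuad ρ ε (τ * σ * τ⁻¹) := by
  obtain ⟨a, ha⟩ := h
  refine ⟨a, ?_⟩
  have hε : ε (τ * σ * τ⁻¹) = ε σ := by
    rw [map_mul, map_mul, map_inv, mul_comm (ε τ), mul_assoc, mul_inv_cancel, mul_one]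
  have h1 : ρ τ * ρ τ⁻¹ = 1 := by rw [← map_mul, mul_inv_cancel, map_one]
  have h2 : ρ τ⁻¹ * ρ τ = 1 := by rw [← map_mul, inv_mul_cancel, map_one]
  have h3 : ρ (τ * σ * τ⁻¹) * ρ (τ * σ * τ⁻¹) = ρ τ * (ρ σ * ρ σ) * ρ τ⁻¹ := by
    simp only [map_mul]
    calc ρ τ * ρ σ * ρ τ⁻¹ * (ρ τ * ρ σ * ρ τ⁻¹)
        = ρ τ * ρ σ * (ρ τ⁻¹ * ρ τ) * ρ σ * ρ τ⁻¹ := by simp only [mul_assoc]
      _ = ρ τ * (ρ σ * ρ σ) * ρ τ⁻¹ := by rw [h2, mul_one]; simp only [mul_assoc]
  have h4 : ρ τ * (ρ σ * ρ σ - a • ρ σ + ((ε σ : kˣ) : k) • (1 : Module.End k W)) * ρ τ⁻¹ = 0 := by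
    rw [ha, mul_zero, zero_mul]
  rw [hε, h3, ← h4]
  simp only [mul_add, mul_sub, add_mul, sub_mul, mul_smul_comm, smul_mul_assoc, mul_one, map_mul,
    h1]

/-- **ALLQUAD, `ℚbar` form.** -/
theorem isQuad_of_isFrobeniusAt {κ : Type} [Field κ] [IsAlgClosed κ] {W : Type} [AddCommGroup W]
    [Module κ W] [Module.Finite κ W] (r : Γ →* Module.End κ W) (ε : Γ →* κˣ)
    (hr : GaloisFactorsThroughFiniteLevel r) (hε : GaloisFactorsThroughFiniteLevel ε)
    (S : Finset ℕ)
    (hfrob : ∀ ℓ : ℕ, ℓ.Prime → ℓ ∉ S → ∀ A : ValuationSubring Qbar, A.LiesOverPrime ℓ →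
      ∀ σ : Γ, A.IsFrobeniusAt σ ℓ → IsQuad r ε σ) :
    ∀ g : Γ, IsQuad r ε g := by
  classical
  obtain ⟨L₁, hL₁, h₁⟩ := hr
  obtain ⟨L₂, hL₂, h₂⟩ := hε
  -- a finite normal level below both kernels
  have hopen : IsOpen ((L₁.fixingSubgroup ⊓ L₂.fixingSubgroup : Subgroup Γ) : Set Γ) := by
    rw [Subgroup.coe_inf]
    exact ((InfiniteGalois.isOpen_iff_finite L₁).2 hL₁).inter
      ((InfiniteGalois.isOpen_iff_finite L₂).2 hL₂)
  have hnhds : ((L₁.fixingSubgroup ⊓ L₂.fixingSubgroup : Subgroup Γ) : Set Γ) ∈ nhds (1 : Γ) :=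
    hopen.mem_nhds (Subgroup.one_mem _)
  obtain ⟨E, hfd, hnormal₁, hE⟩ := (krullTopology_mem_nhds_one_iff_of_normal ℚ Qbar _).mp hnhds
  haveI : NumberField E := by
    refine @NumberField.mk _ _ inferInstance ?_
    convert hfd
  haveI : Normal ℚ E := by
    convert hnormal₁
    exact Rat.algebra_rat_subsingleton.elim _ _
  haveI : IsGalois ℚ E := ⟨⟩
  set res : Γ →* (↥E ≃ₐ[ℚ] ↥E) := AlgEquiv.restrictNormalHom (F := ℚ) (K₁ := Qbar) ↥E with hres
  have hrsurj : Function.Surjective res :=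
    AlgEquiv.restrictNormalHom_surjective (F := ℚ) (K₁ := ↥E) Qbar
  have hcomm : ∀ (σ : Γ) (x : ↥E), algebraMap (↥E) Qbar (res σ x) = σ (algebraMap (↥E) Qbar x) :=
    fun σ x => AlgEquiv.restrictNormal_commutes σ _ x
  have hker : ∀ σ : Γ, σ ∈ res.ker → (∀ x ∈ L₁, σ x = x) ∧ (∀ x ∈ L₂, σ x = x) := by
    intro σ hσ
    rw [MonoidHom.mem_ker] at hσ
    have hmem : σ ∈ (L₁.fixingSubgroup ⊓ L₂.fixingSubgroup : Subgroup Γ) := by
      refine hE ?_
      rw [SetLike.mem_coe, IntermediateField.mem_fixingSubgroup_iff]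
      intro x hx
      have h1 := hcomm σ ⟨x, hx⟩
      rw [hσ] at h1
      exact h1.symm
    rw [Subgroup.mem_inf, IntermediateField.mem_fixingSubgroup_iff,
      IntermediateField.mem_fixingSubgroup_iff] at hmem
    exact hmem
  have hkr : res.ker ≤ r.toHomUnits.ker := fun σ hσ => by
    rw [MonoidHom.mem_ker]
    apply Units.ext
    rw [MonoidHom.coe_toHomUnits, Units.val_one]
    exact h₁ σ (hker σ hσ).1
  have hkε : res.ker ≤ ε.ker := fun σ hσ => MonoidHom.mem_ker.2 (h₂ σ (hker σ hσ).2)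
  -- descent to the finite Galois group
  set rE : (↥E ≃ₐ[ℚ] ↥E) →* Module.End κ W :=
    (Units.coeHom (Module.End κ W)).comp
      (MonoidHom.liftOfRightInverse res (Function.surjInv hrsurj)
        (Function.rightInverse_surjInv hrsurj) ⟨r.toHomUnits, hkr⟩) with hrE
  set εE : (↥E ≃ₐ[ℚ] ↥E) →* κˣ :=
    MonoidHom.liftOfRightInverse res (Function.surjInv hrsurj)
      (Function.rightInverse_surjInv hrsurj) ⟨ε, hkε⟩ with hεE
  have hrE' : ∀ σ : Γ, rE (res σ) = r σ := fun σ => by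
    rw [hrE, MonoidHom.comp_apply,
      MonoidHom.liftOfRightInverse_comp_apply res (Function.surjInv hrsurj)
        (Function.rightInverse_surjInv hrsurj) ⟨r.toHomUnits, hkr⟩ σ]
    rfl
  have hεE' : ∀ σ : Γ, εE (res σ) = ε σ := fun σ =>
    MonoidHom.liftOfRightInverse_comp_apply res (Function.surjInv hrsurj)
      (Function.rightInverse_surjInv hrsurj) ⟨ε, hkε⟩ σ
  have hquad : ∀ σ : Γ, IsQuad rE εE (res σ) ↔ IsQuad r ε σ := by
    intro σ
    unfold IsQuad
    rw [hrE', hεE']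
  -- the density hypothesis on the finite group
  have hall : ∀ gE : ↥E ≃ₐ[ℚ] ↥E, IsQuad rE εE gE := by
    refine isQuad_of_density (fun g => isOfFinOrder_of_finite g) rE εE ?_
    intro gE T hle hsum
    have hmapcomap : ∀ K : Subgroup (↥E ≃ₐ[ℚ] ↥E), (K.comap res).map res = K := fun K =>
      Subgroup.map_comap_eq_self_of_surjective hrsurj K
    obtain ⟨l, hl, hBl, hall⟩ :=
      Fermat.Agent.S41.H70.exists_prime_forall_isFrobeniusAt_aux (algebraMap (↥E) Qbar) res hcomm
        hrsurj ((Subgroup.zpowers gE).comap res)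
        (fun σ hσ => by
          rw [Subgroup.mem_comap, MonoidHom.mem_ker.1 hσ]
          exact Subgroup.one_mem _)
        (fun K : T => (K : Subgroup (↥E ≃ₐ[ℚ] ↥E)).comap res)
        (fun K σ hσ => by
          rw [Subgroup.mem_comap, MonoidHom.mem_ker.1 hσ]
          exact Subgroup.one_mem _)
        (fun K => Subgroup.comap_mono (hle K.1 K.2))
        (fun K τ hτ σ hσ => by
          rw [Subgroup.mem_comap] at hτ hσ ⊢
          have hσ' : res σ ∈ Subgroup.zpowers gE := hle K.1 K.2 hσ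
          obtain ⟨a, ha⟩ := Subgroup.mem_zpowers_iff.1 hτ
          obtain ⟨b, hb⟩ := Subgroup.mem_zpowers_iff.1 hσ'
          have : res (τ * σ * τ⁻¹) = res σ := by
            rw [map_mul, map_mul, map_inv, ← ha, ← hb, ← zpow_add, ← zpow_neg, ← zpow_add]
            congr 1
            ring
          rw [this]
          exact hσ)
        (by
          have e : ∀ K : T, (((K : Subgroup (↥E ≃ₐ[ℚ] ↥E)).comap res).relIndex
              ((Subgroup.zpowers gE).comap res)) =
              (K : Subgroup (↥E ≃ₐ[ℚ] ↥E)).relIndex (Subgroup.zpowers gE) := by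
            intro K
            rw [Subgroup.relIndex_comap, hmapcomap]
          simp only [e]
          rw [Finset.sum_coe_sort T
            (fun K => (1 : ℝ) / ((K.relIndex (Subgroup.zpowers gE) : ℕ) : ℝ))]
          exact hsum)
        (S.sup id)
    obtain ⟨A, σ, hA, hσ⟩ := Fermat.Agent.S54.H94.exists_isFrobeniusAt l hl
    obtain ⟨τ, hτ1, hτ2⟩ := hall A hA σ hσ
    have hlS : l ∉ S := by
      intro hmem
      have : l ≤ S.sup id := Finset.le_sup (f := id) hmem
      omega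
    refine ⟨res (τ * σ * τ⁻¹), hτ1, fun K hK => hτ2 ⟨K, hK⟩, ?_⟩
    rw [hquad]
    exact (hfrob l hl hlS A hA σ hσ).conj τ
  intro g
  rw [← hquad]
  exact hall (res g)

end Fermat.Agent.S29.H39
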