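/-
S29 / S42 (Program A), glue leaf QUAD, part 3 (helper39): the number-field form.

`L / ℚ` a finite Galois extension, `ρ : Gal(L/ℚ) →* End_k W` a representation on a
finite-dimensional space over an algebraically closed field, `ε : Gal(L/ℚ) →* kˣ` a character.
If every Frobenius element at the primes `l > B` satisfies a quadratic relation
`σ ^ 2 - a σ + ε σ = 0` on `W`, then so does every element of `Gal(L/ℚ)`.

Input: the landed sub-additive Frobenius density `S41.H70.exists_frobenius_not_mem`, used only for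
families of at most two subgroups of a cyclic subgroup.  The exact (cyclic) form of the Frobenius
density theorem is not needed.
-/
import Fermat.Agent.S29.H39.Quad
import Fermat.Agent.S41.H70.FrobDensity

set_option autoImplicit false

open NumberField

namespace Fermat.Agent.S29.H39

variable {L : Type*} [Field L] [NumberField L] [IsGalois ℚ L]
  {k : Type*} [Field k] [IsAlgClosed k] {W : Type*} [AddCommGroup W] [Module k W]
  [FiniteDimensional k W]

/-- **QUAD, number-field form.** -/
theorem isQuad_of_frobenius (ρ : (L ≃ₐ[ℚ] L) →* Module.End k W) (ε : (L ≃ₐ[ℚ] L) →* kˣ)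
    (hfrob : ∃ B : ℕ, ∀ (l : ℕ) (P : Ideal (𝓞 L)) (σ : L ≃ₐ[ℚ] L), l.Prime → B < l →
      P.IsPrime → (l : 𝓞 L) ∈ P → (∀ x : 𝓞 L, σ • x - x ^ l ∈ P) → IsQuad ρ ε σ) :
    ∀ g : L ≃ₐ[ℚ] L, IsQuad ρ ε g := by
  classical
  obtain ⟨B, hB⟩ := hfrob
  refine isQuad_of_density (fun g => isOfFinOrder_of_finite g) ρ ε ?_
  intro g S hle hsum
  obtain ⟨l, P, σ, hl, hBl, hP, hlP, hσH, hσS, hσ⟩ :=
    Fermat.Agent.S41.H70.exists_frobenius_not_mem (Subgroup.zpowers g)
      (fun K : S => (K : Subgroup (L ≃ₐ[ℚ] L))) (fun K => hle K.1 K.2)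
      (fun K τ hτ σ hσ => by
        have hσ' : σ ∈ Subgroup.zpowers g := hle K.1 K.2 hσ
        obtain ⟨a, rfl⟩ := Subgroup.mem_zpowers_iff.1 hτ
        obtain ⟨b, rfl⟩ := Subgroup.mem_zpowers_iff.1 hσ'
        have : g ^ a * g ^ b * (g ^ a)⁻¹ = g ^ b := by
          rw [← zpow_add, ← zpow_neg, ← zpow_add]
          congr 1
          ring
        rw [this]
        exact hσ)
      (by
        rw [Finset.sum_coe_sort S
          (fun K => (1 : ℝ) / ((K.relIndex (Subgroup.zpowers g) : ℕ) : ℝ))]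
        exact hsum) B
  exact ⟨σ, hσH, fun K hK => hσS ⟨K, hK⟩, hB l P σ hl hBl hP hlP hσ⟩

end Fermat.Agent.S29.H39
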